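import Mathlib
import Fermat.Prelude.Def_EllipticCurve_FrobeniusTrace

set_option autoImplicit false
set_option linter.style.haveILetI false

namespace Fermat.Agent.S54

open Polynomial

section Horner

variable {L : Type*} [Field L] (B : Subring L) (Q : Ideal B)

/-- The localisation of the subring `B` at the prime `Q`, as a subset of `L`. -/
def locSet : Set L := {x | ∃ b s : B, s ∉ Q ∧ x * (s : L) = (b : L)}

variable {B Q}

lemma mem_locSet_of_mem {x : L} (hx : x ∈ B) (hQ : Q ≠ ⊤) : x ∈ locSet B Q :=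
  ⟨⟨x, hx⟩, 1, (Ideal.ne_top_iff_one Q).mp hQ, by simp⟩

lemma isIntegral_top_mul {x : L} (n : ℕ) (a : ℕ → B)
    (h : ∑ i ∈ Finset.range (n + 1), (a i : L) * x ^ i = 0) :
    IsIntegral B ((a n : L) * x) := by
  classical
  by_cases han : a n = 0
  · rw [han]; simpa using isIntegral_zero
  set p : B[X] := ∑ i ∈ Finset.range (n + 1), C (a i) * X ^ i with hp
  have hdeg : p.natDegree ≤ n := by
    refine Polynomial.natDegree_sum_le_of_forall_le _ _ fun i hi => ?_
    exact (Polynomial.natDegree_C_mul_X_pow_le _ _).trans (Nat.lt_succ_iff.mp (Finset.mem_range.mp hi))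
  have hcoeff : p.coeff n = a n := by
    rw [hp, Polynomial.finsetSum_coeff]
    simp only [Polynomial.coeff_C_mul_X_pow]
    rw [Finset.sum_eq_single n]
    · simp
    · intro i _ hi; simp [Ne.symm hi]
    · intro h; exact absurd (Finset.mem_range.mpr (Nat.lt_succ_self n)) h
  have hnat : p.natDegree = n :=
    le_antisymm hdeg (Polynomial.le_natDegree_of_ne_zero (by rw [hcoeff]; exact han))
  have hlead : p.leadingCoeff = a n := by rw [Polynomial.leadingCoeff, hnat, hcoeff]
  have hroot : aeval x p = 0 := by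
    rw [hp, map_sum]
    simp only [map_mul, aeval_C, map_pow, aeval_X]
    exact h
  have := isIntegral_leadingCoeff_smul p x hroot
  rwa [hlead, Algebra.smul_def] at this

lemma mem_or_inv_mem_locSet [Q.IsPrime] (hB : ∀ y : L, IsIntegral B y → y ∈ B) (x : L) :
    ∀ (n : ℕ) (a : ℕ → B), ∑ i ∈ Finset.range (n + 1), (a i : L) * x ^ i = 0 →
      (∃ i, i ≤ n ∧ a i ∉ Q) → x ∈ locSet B Q ∨ x⁻¹ ∈ locSet B Q := by
  intro n
  induction n with
  | zero =>
    intro a h hex
    exfalso
    obtain ⟨i, hi, hiQ⟩ := hex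
    obtain rfl : i = 0 := Nat.le_zero.mp hi
    apply hiQ
    have : (a 0 : L) = 0 := by simpa using h
    have h0 : a 0 = 0 := Subtype.ext this
    rw [h0]; exact Q.zero_mem
  | succ n ih =>
    intro a h hex
    have htint : IsIntegral B ((a (n + 1) : L) * x) := isIntegral_top_mul (n + 1) a h
    set t : B := ⟨(a (n + 1) : L) * x, hB _ htint⟩ with ht
    set a' : ℕ → B := fun i => if i = n then t + a n else a i with ha'
    have hsum : ∑ i ∈ Finset.range (n + 1), (a' i : L) * x ^ i = 0 := by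
      rw [Finset.sum_range_succ] at h ⊢
      rw [Finset.sum_range_succ] at h
      have h1 : ∑ i ∈ Finset.range n, (a' i : L) * x ^ i
          = ∑ i ∈ Finset.range n, (a i : L) * x ^ i := by
        refine Finset.sum_congr rfl fun i hi => ?_
        have : i ≠ n := (Finset.mem_range.mp hi).ne
        simp [ha', this]
      rw [h1]
      have h2 : (a' n : L) = (a (n + 1) : L) * x + (a n : L) := by simp [ha', ht]
      rw [h2, ← h]
      ring
    by_cases hex' : ∃ i, i ≤ n ∧ a' i ∉ Q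
    · exact ih a' hsum hex'
    · simp only [not_exists, not_and, not_not] at hex'
      have hlow : ∀ i, i < n → a i ∈ Q := by
        intro i hi
        have := hex' i hi.le
        simpa [ha', hi.ne] using this
      have htop : t + a n ∈ Q := by
        have := hex' n le_rfl
        simpa [ha'] using this
      obtain ⟨i, hi, hiQ⟩ := hex
      by_cases hn1 : a (n + 1) ∈ Q
      · -- then a n ∉ Q
        have hi' : i = n := by
          rcases Nat.lt_or_ge i n with h1 | h1
          · exact absurd (hlow i h1) hiQ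
          · rcases Nat.lt_or_ge n i with h2 | h2
            · have : i = n + 1 := le_antisymm hi h2
              rw [this] at hiQ; exact absurd hn1 hiQ
            · exact le_antisymm h2 h1
        rw [hi'] at hiQ
        have htQ : t ∉ Q := fun htQ => hiQ (by
          have := Q.sub_mem htop htQ
          simpa using this)
        have hx0 : x ≠ 0 := by
          rintro rfl
          apply htQ
          have : t = 0 := Subtype.ext (by simp [ht])
          rw [this]; exact Q.zero_mem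
        right
        refine ⟨a (n + 1), t, htQ, ?_⟩
        show x⁻¹ * ((a (n + 1) : L) * x) = (a (n + 1) : L)
        field_simp
      · left
        exact ⟨t, a (n + 1), hn1, by show x * (a (n + 1) : L) = (a (n + 1) : L) * x; ring⟩

section SubringStructure

variable [Q.IsPrime]

lemma zero_mem_locSet : (0 : L) ∈ locSet B Q :=
  ⟨0, 1, (Ideal.ne_top_iff_one Q).mp (Ideal.IsPrime.ne_top ‹_›), by simp⟩

lemma one_mem_locSet : (1 : L) ∈ locSet B Q :=
  ⟨1, 1, (Ideal.ne_top_iff_one Q).mp (Ideal.IsPrime.ne_top ‹_›), by simp⟩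

lemma add_mem_locSet {x y : L} (hx : x ∈ locSet B Q) (hy : y ∈ locSet B Q) :
    x + y ∈ locSet B Q := by
  obtain ⟨b, s, hs, h⟩ := hx
  obtain ⟨b', s', hs', h'⟩ := hy
  refine ⟨b * s' + b' * s, s * s', fun hmem => ?_, ?_⟩
  · rcases Ideal.IsPrime.mem_or_mem ‹_› hmem with h1 | h1
    · exact hs h1
    · exact hs' h1
  · push_cast
    rw [← h, ← h']; ring

lemma mul_mem_locSet {x y : L} (hx : x ∈ locSet B Q) (hy : y ∈ locSet B Q) :
    x * y ∈ locSet B Q := by
  obtain ⟨b, s, hs, h⟩ := hx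
  obtain ⟨b', s', hs', h'⟩ := hy
  refine ⟨b * b', s * s', fun hmem => ?_, ?_⟩
  · rcases Ideal.IsPrime.mem_or_mem ‹_› hmem with h1 | h1
    · exact hs h1
    · exact hs' h1
  · push_cast
    rw [← h, ← h']; ring

omit [Q.IsPrime] in
lemma neg_mem_locSet {x : L} (hx : x ∈ locSet B Q) : -x ∈ locSet B Q := by
  obtain ⟨b, s, hs, h⟩ := hx
  exact ⟨-b, s, hs, by push_cast; rw [← h]; ring⟩

variable (B Q) in
/-- The localisation of `B` at `Q` as a subring of `L`. -/
def locSubring : Subring L where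
  carrier := locSet B Q
  zero_mem' := zero_mem_locSet
  one_mem' := one_mem_locSet
  add_mem' := add_mem_locSet
  mul_mem' := mul_mem_locSet
  neg_mem' := neg_mem_locSet

end SubringStructure

end Horner

noncomputable section QbarSec

local notation "Qbar" => AlgebraicClosure ℚ
local notation "Γℚ" => (AlgebraicClosure ℚ ≃ₐ[ℚ] AlgebraicClosure ℚ)

/-- Instance-path repair: the default `Algebra ℚ Qbar` is the division-ring one. -/
local instance qbarIsAlgebraic : Algebra.IsAlgebraic ℚ Qbar := AlgebraicClosure.isAlgebraic ℚ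

local instance qbarIsAlgClosure : IsAlgClosure ℚ Qbar := ⟨inferInstance, inferInstance⟩

/-- The ring of all algebraic integers, as a subring of `Qbar`. -/
def intQbar : Subring Qbar := (integralClosure ℤ Qbar).toSubring

lemma mem_intQbar {x : Qbar} : x ∈ intQbar ↔ IsIntegral ℤ x := Iff.rfl

instance intQbar_isIntegral : Algebra.IsIntegral ℤ intQbar :=
  ⟨fun b => by
    have hb : IsIntegral ℤ (b : Qbar) := b.2
    exact (isIntegral_algebraMap_iff (A := intQbar) (B := Qbar)
      (Subtype.val_injective)).mp hb⟩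

lemma intQbar_closed (y : Qbar) (hy : IsIntegral intQbar y) : y ∈ intQbar :=
  mem_intQbar.mpr (isIntegral_trans (R := ℤ) (A := intQbar) y hy)

/-- The Galois action on algebraic integers. -/
@[instance_reducible] def galAction : MulSemiringAction Γℚ intQbar where
  smul σ b := ⟨σ b.1, mem_intQbar.mpr (map_isIntegral_int σ b.2)⟩
  one_smul _ := Subtype.ext rfl
  mul_smul _ _ _ := Subtype.ext rfl
  smul_zero σ := Subtype.ext (map_zero σ)
  smul_add σ a b := Subtype.ext (map_add σ a.1 b.1)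
  smul_one σ := Subtype.ext (map_one σ)
  smul_mul σ a b := Subtype.ext (map_mul σ a.1 b.1)

attribute [local instance] galAction

lemma coe_galAction_smul (σ : Γℚ) (b : intQbar) : ((σ • b : intQbar) : Qbar) = σ (b : Qbar) := rfl

open scoped Pointwise

lemma galAction_isInvariant : Algebra.IsInvariant ℤ intQbar Γℚ := by
  refine ⟨fun b hb => ?_⟩
  have hfix : ∀ f : Γℚ, f (b : Qbar) = (b : Qbar) := fun f => congrArg Subtype.val (hb f)
  obtain ⟨q, hq⟩ := (InfiniteGalois.mem_range_algebraMap_iff_fixed (k := ℚ) (K := Qbar) _).mpr hfix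
  have hint : IsIntegral ℤ (b : Qbar) := b.2
  rw [← hq, isIntegral_algebraMap_iff (FaithfulSMul.algebraMap_injective ℚ Qbar)] at hint
  obtain ⟨n, hn⟩ := IsIntegrallyClosed.algebraMap_eq_of_integral hint
  refine ⟨n, Subtype.ext ?_⟩
  rw [← hq, ← hn]
  simp

lemma galAction_continuousSMul [TopologicalSpace intQbar] [DiscreteTopology intQbar] :
    ContinuousSMul Γℚ intQbar := by
  rw [continuousSMul_iff_stabilizer_isOpen]
  intro b
  have := stabilizer_isOpen_of_isIntegral (K := ℚ) (L := Qbar) (b : Qbar)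
  convert this using 1
  ext σ
  simp only [SetLike.mem_coe, MulAction.mem_stabilizer_iff]
  exact ⟨fun h => congrArg Subtype.val h, fun h => Subtype.ext h⟩

lemma exists_frob_intQbar {ℓ : ℕ} (hℓ : ℓ.Prime) (Q : Ideal intQbar) [Q.IsMaximal]
    [Q.LiesOver (Ideal.span {(ℓ : ℤ)})] :
    ∃ σ : Γℚ, σ • Q = Q ∧ ∀ b : intQbar, σ • b - b ^ ℓ ∈ Q := by
  letI : TopologicalSpace intQbar := ⊥
  haveI : DiscreteTopology intQbar := ⟨rfl⟩
  haveI := galAction_continuousSMul
  haveI := galAction_isInvariant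
  set P : Ideal ℤ := Ideal.span {(ℓ : ℤ)} with hP
  letI : Field (intQbar ⧸ Q) := Ideal.Quotient.field Q
  have hℓmem : ((ℓ : ℤ) : intQbar) ∈ Q := by
    have h1 : (ℓ : ℤ) ∈ P := Ideal.mem_span_singleton_self _
    have h2 : (ℓ : ℤ) ∈ Q.under ℤ := by rw [← Ideal.LiesOver.over (P := Q) (p := P)]; exact h1
    simpa [Ideal.under, Ideal.mem_comap] using h2
  have hℓQ : ((ℓ : ℕ) : intQbar ⧸ Q) = 0 := by
    have : (Ideal.Quotient.mk Q ((ℓ : ℤ) : intQbar)) = 0 := Ideal.Quotient.eq_zero_iff_mem.mpr hℓmem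
    simpa using this
  haveI : CharP (intQbar ⧸ Q) ℓ := (CharP.charP_iff_prime_eq_zero hℓ).mpr hℓQ
  haveI : Fact ℓ.Prime := ⟨hℓ⟩
  have hsurj : Function.Surjective (frobenius (intQbar ⧸ Q) ℓ) := by
    intro y
    obtain ⟨b, rfl⟩ := Ideal.Quotient.mk_surjective y
    obtain ⟨z, hz⟩ := IsAlgClosed.exists_pow_nat_eq (b : Qbar) hℓ.pos
    have hzint : IsIntegral ℤ z := by
      refine IsIntegral.of_pow hℓ.pos ?_
      rw [hz]; exact b.2
    refine ⟨Ideal.Quotient.mk Q ⟨z, mem_intQbar.mpr hzint⟩, ?_⟩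
    rw [frobenius_def, ← map_pow]
    congr 1
    exact Subtype.ext hz
  have hinj : Function.Injective (frobenius (intQbar ⧸ Q) ℓ) := frobenius_inj _ ℓ
  let φ : (intQbar ⧸ Q) ≃ₐ[ℤ ⧸ P] (intQbar ⧸ Q) :=
    { RingEquiv.ofBijective (frobenius (intQbar ⧸ Q) ℓ) ⟨hinj, hsurj⟩ with
      commutes' := by
        intro r
        obtain ⟨n, rfl⟩ := Ideal.Quotient.mk_surjective r
        show frobenius (intQbar ⧸ Q) ℓ _ = _
        have : algebraMap (ℤ ⧸ P) (intQbar ⧸ Q) (Ideal.Quotient.mk P n) = ((n : ℤ) : intQbar ⧸ Q) := by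
          rw [← Ideal.Quotient.algebraMap_eq, ← IsScalarTower.algebraMap_apply]
          simp
        rw [this, map_intCast] }
  obtain ⟨σ, hσ⟩ := Ideal.Quotient.stabilizerHom_surjective_of_profinite (G := Γℚ) P Q φ
  refine ⟨σ.1, σ.2, fun b => ?_⟩
  have h1 := DFunLike.congr_fun hσ (Ideal.Quotient.mk Q b)
  rw [Ideal.Quotient.stabilizerHom_apply] at h1
  have h2 : φ (Ideal.Quotient.mk Q b) = Ideal.Quotient.mk Q (b ^ ℓ) := by
    show frobenius (intQbar ⧸ Q) ℓ _ = _
    rw [frobenius_def, map_pow]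
  rw [h2] at h1
  exact Ideal.Quotient.eq.mp h1

section ValSubring

variable {ℓ : ℕ} (hℓ : ℓ.Prime) (Q : Ideal intQbar) [Q.IsPrime]
  [hQP : Q.LiesOver (Ideal.span {(ℓ : ℤ)})]

omit [Q.IsPrime] in
include hQP in
lemma intCast_mem_iff (n : ℤ) : ((n : ℤ) : intQbar) ∈ Q ↔ (ℓ : ℤ) ∣ n := by
  rw [← Ideal.mem_span_singleton, Ideal.LiesOver.over (P := Q) (p := Ideal.span {(ℓ : ℤ)})]
  simp [Ideal.under, Ideal.mem_comap]

omit [Q.IsPrime] in
include hℓ hQP in
lemma exists_primitive_relation (x : Qbar) :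
    ∃ (n : ℕ) (a : ℕ → intQbar), ∑ i ∈ Finset.range (n + 1), (a i : Qbar) * x ^ i = 0 ∧
      ∃ i, i ≤ n ∧ a i ∉ Q := by
  have halg : IsAlgebraic ℤ x :=
    (IsFractionRing.isAlgebraic_iff ℤ ℚ Qbar).mpr (Algebra.IsAlgebraic.isAlgebraic x)
  obtain ⟨p, hp0, hpx⟩ := halg
  set q := p.primPart with hq
  have hqx : aeval x q = 0 := Polynomial.aeval_primPart_eq_zero hp0 hpx
  have hprim : q.IsPrimitive := Polynomial.isPrimitive_primPart p
  refine ⟨q.natDegree, fun i => ((q.coeff i : ℤ) : intQbar), ?_, ?_⟩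
  · rw [Polynomial.aeval_eq_sum_range] at hqx
    rw [← hqx]
    refine Finset.sum_congr rfl fun i _ => ?_
    rw [zsmul_eq_mul]
    simp
  · by_contra hcon
    simp only [not_exists, not_and, not_not] at hcon
    have hdvd : Polynomial.C (ℓ : ℤ) ∣ q := by
      rw [Polynomial.C_dvd_iff_dvd_coeff]
      intro i
      by_cases hi : i ≤ q.natDegree
      · exact (intCast_mem_iff Q _).mp (hcon i hi)
      · rw [Polynomial.coeff_eq_zero_of_natDegree_lt (not_le.mp hi)]
        exact dvd_zero _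
    have hunit := hprim _ hdvd
    rw [Int.isUnit_iff_natAbs_eq] at hunit
    simp at hunit
    exact hℓ.one_lt.ne' hunit

/-- The valuation subring of `Qbar` attached to a prime `Q` of the ring of algebraic integers. -/
def valSubring : ValuationSubring Qbar :=
  { locSubring intQbar Q with
    mem_or_inv_mem' := fun x => by
      obtain ⟨n, a, h, hex⟩ := exists_primitive_relation hℓ Q x
      exact mem_or_inv_mem_locSet intQbar_closed x n a h hex }

lemma mem_valSubring_iff {x : Qbar} :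
    x ∈ valSubring hℓ Q ↔ ∃ b s : intQbar, s ∉ Q ∧ x * (s : Qbar) = (b : Qbar) := Iff.rfl

lemma mem_nonunits_valSubring {x : Qbar} {q t : intQbar} (hq : q ∈ Q) (ht : t ∉ Q)
    (h : x * (t : Qbar) = (q : Qbar)) : x ∈ (valSubring hℓ Q).nonunits := by
  rw [ValuationSubring.mem_nonunits_iff_or]
  by_cases hx : x = 0
  · exact Or.inl hx
  · right
    rintro ⟨b, s, hs, hbs⟩
    have hkey : (t : Qbar) * (s : Qbar) = (b : Qbar) * (q : Qbar) := by
      rw [← h, ← hbs]; field_simp
    have hkey' : t * s = b * q := Subtype.ext (by push_cast; exact hkey)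
    have hmem : t * s ∈ Q := by rw [hkey']; exact Q.mul_mem_left _ hq
    rcases Ideal.IsPrime.mem_or_mem ‹_› hmem with h1 | h1
    · exact ht h1
    · exact hs h1

lemma liesOverPrime_valSubring : (valSubring hℓ Q).LiesOverPrime ℓ := by
  show ((ℓ : ℕ) : Qbar) ∈ (valSubring hℓ Q).nonunits
  have hmem : ((ℓ : ℤ) : intQbar) ∈ Q := (intCast_mem_iff Q _).mpr dvd_rfl
  have h1 : (1 : intQbar) ∉ Q := (Ideal.ne_top_iff_one Q).mp (Ideal.IsPrime.ne_top ‹_›)
  refine mem_nonunits_valSubring hℓ Q hmem h1 ?_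
  push_cast
  ring

lemma smul_mem_valSubring {τ : Γℚ} (hτ : τ • Q = Q) {x : Qbar} (hx : x ∈ valSubring hℓ Q) :
    τ x ∈ valSubring hℓ Q := by
  obtain ⟨b, s, hs, h⟩ := hx
  refine ⟨τ • b, τ • s, ?_, ?_⟩
  · intro hmem
    apply hs
    rw [← hτ] at hmem
    exact Ideal.smul_mem_pointwise_smul_iff.mp hmem
  · show τ x * τ (s : Qbar) = τ (b : Qbar)
    rw [← map_mul, h]

lemma mem_decompositionSubgroup_valSubring {σ : Γℚ} (hσ : σ • Q = Q) :
    σ ∈ (valSubring hℓ Q).decompositionSubgroup ℚ := by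
  rw [MulAction.mem_stabilizer_iff]
  have hσ' : σ⁻¹ • Q = Q := by rw [inv_smul_eq_iff, hσ]
  ext x
  rw [ValuationSubring.mem_pointwise_smul_iff_inv_smul_mem]
  constructor
  · intro h
    have := smul_mem_valSubring hℓ Q hσ h
    simpa using this
  · intro h
    exact smul_mem_valSubring hℓ Q hσ' h

lemma isFrobeniusAt_valSubring {σ : Γℚ} (hσ : σ • Q = Q)
    (hfrob : ∀ b : intQbar, σ • b - b ^ ℓ ∈ Q) :
    (valSubring hℓ Q).IsFrobeniusAt σ ℓ := by
  refine ⟨mem_decompositionSubgroup_valSubring hℓ Q hσ, fun x => ?_⟩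
  obtain ⟨a, rfl⟩ := IsLocalRing.residue_surjective x
  rw [← IsLocalRing.ResidueField.residue_smul, ← map_pow]
  refine Ideal.Quotient.eq.mpr ?_
  rw [← ValuationSubring.coe_mem_nonunits_iff]
  obtain ⟨b, s, hs, hbs⟩ := a.2
  -- σ a - a^ℓ = (σ b * s^ℓ - b^ℓ * σ s) / (σ s * s^ℓ)
  have hσs : σ • s ∉ Q := by
    intro hmem
    apply hs
    rw [← hσ] at hmem
    exact Ideal.smul_mem_pointwise_smul_iff.mp hmem
  have hden : σ • s * s ^ ℓ ∉ Q := by
    intro hmem
    rcases Ideal.IsPrime.mem_or_mem ‹_› hmem with h1 | h1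
    · exact hσs h1
    · exact hs (Ideal.IsPrime.mem_of_pow_mem ‹_› _ h1)
  have hnum : σ • b * s ^ ℓ - b ^ ℓ * σ • s ∈ Q := by
    have h1 : (σ • b - b ^ ℓ) * s ^ ℓ ∈ Q := Q.mul_mem_right _ (hfrob b)
    have h2 : b ^ ℓ * (σ • s - s ^ ℓ) ∈ Q := Q.mul_mem_left _ (hfrob s)
    have : σ • b * s ^ ℓ - b ^ ℓ * σ • s = (σ • b - b ^ ℓ) * s ^ ℓ - b ^ ℓ * (σ • s - s ^ ℓ) := by
      ring
    rw [this]
    exact Q.sub_mem h1 h2
  refine mem_nonunits_valSubring hℓ Q hnum hden ?_
  have hσa : σ (a : Qbar) * σ (s : Qbar) = σ (b : Qbar) := by rw [← map_mul, hbs]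
  have hcoe : (((⟨σ, mem_decompositionSubgroup_valSubring hℓ Q hσ⟩ :
      (valSubring hℓ Q).decompositionSubgroup ℚ) • a - a ^ ℓ : valSubring hℓ Q) : Qbar)
      = σ (a : Qbar) - (a : Qbar) ^ ℓ := rfl
  rw [hcoe]
  push_cast
  rw [coe_galAction_smul, coe_galAction_smul, ← hσa, ← hbs]
  ring

end ValSubring

/-- For every prime `ℓ` there are a place of `Qbar` over `ℓ` and a Frobenius element there. -/
theorem exists_isFrobeniusAt {ℓ : ℕ} (hℓ : ℓ.Prime) :
    ∃ (A : ValuationSubring (AlgebraicClosure ℚ))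
      (σ : AlgebraicClosure ℚ ≃ₐ[ℚ] AlgebraicClosure ℚ),
      A.LiesOverPrime ℓ ∧ A.IsFrobeniusAt σ ℓ := by
  haveI hPmax : (Ideal.span {(ℓ : ℤ)}).IsMaximal :=
    PrincipalIdealRing.isMaximal_of_irreducible
      (Nat.prime_iff_prime_int.mp hℓ).irreducible
  obtain ⟨Q, hQmax, hQover⟩ :=
    Ideal.exists_maximal_ideal_liesOver_of_isIntegral (S := intQbar) (Ideal.span {(ℓ : ℤ)})
  obtain ⟨σ, hσ, hfrob⟩ := exists_frob_intQbar hℓ Q
  exact ⟨valSubring hℓ Q, σ, liesOverPrime_valSubring hℓ Q, isFrobeniusAt_valSubring hℓ Q hσ hfrob⟩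

end QbarSec

end Fermat.Agent.S54
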